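/-
PROGRAMME MZ (S15), chapter CUSP (helper1): **the two cusps `∞`, `0` of `X₀(N)` as places of
`FF N = ℚbar(j(q^d) : d ∣ N)` and the cuspidal class `c = cl((0) − (∞))`.**

* `chartInf N` (the `q`-expansion), `chartZero N` (the Fricke expansion `f ↦ (W_N f)(q)`);
* `cuspInf N`, `cuspZero N : Place Kbar (FF N)` with `ord = order ∘ chart`
  (`ord_cuspInf`, `ord_cuspZero`);
* `ord_cuspInf_jF = -1`, `ord_cuspInf_jNF = -N`, `ord_cuspZero_jF = -N`, `ord_cuspZero_jNF = -1`,
  `cuspInf_ne_cuspZero` (`1 < N`);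
* `deg_cuspInf`, `deg_cuspZero` (`= 1`);
* `arithmeticGalois_smul_cuspInf`, `arithmeticGalois_smul_cuspZero` : both cusps are `G_ℚ`-fixed;
* `cuspDiv N`, `cuspClass N : JZero N`, `smul_cuspClass` (`c ∈ J₀(N)(ℚ̄)^{G_ℚ}`).
-/
import Mathlib
import Fermat.Agent.ES.N34.ModEqBar23
import Fermat.Agent.ES.N34.FrickeFK8
import Fermat.Agent.ES.P36.JDict26
import Fermat.Agent.ORD.IFACEN.FrickeGal9

set_option autoImplicit false
set_option linter.unusedSectionVars false
set_option linter.unusedVariables false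
set_option linter.style.longLine false
set_option synthInstance.maxHeartbeats 400000
set_option maxHeartbeats 1000000

open AlgebraicCurve ModularCurve

noncomputable section

namespace Fermat.Agent.MZ.CUSP.CuspPlaces1

open Fermat.Agent.X0 Fermat.Agent.X0.FF
open Fermat.Agent.ES.N34.ModEqBar23 Fermat.Agent.ES.N34.FrickeFK8
open Fermat.Agent.ORD.IFACEN.FrickeGal9

variable (N : ℕ) [NeZero N]

/-- the chart at `∞`: the `q`-expansion. -/
def chartInf : FF N →+* LaurentSeries Kbar := valHom N

/-- the chart at `0`: the Fricke expansion `f ↦ (W_N f)(q)`. -/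
def chartZero : FF N →+* LaurentSeries Kbar := (valHom N).comp (frickeBar N).toRingHom

@[simp] theorem chartInf_apply (x : FF N) : chartInf N x = (x : LaurentSeries Kbar) := rfl

@[simp] theorem chartZero_apply (x : FF N) :
    chartZero N x = ((frickeBar N x : FF N) : LaurentSeries Kbar) := rfl

theorem chartInf_const (c : Kbar) : chartInf N (algebraMap Kbar (FF N) c) = HahnSeries.C c :=
  valHom_const N c

theorem chartZero_const (c : Kbar) : chartZero N (algebraMap Kbar (FF N) c) = HahnSeries.C c := by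
  show valHom N (frickeBar N (algebraMap Kbar (FF N) c)) = HahnSeries.C c
  rw [AlgHom.commutes]
  exact valHom_const N c

/-- `j_N = j(q^N)` as an element of `FF N`. -/
def jNF : FF N := jdF N N dvd_rfl

theorem frickeBar_jF : frickeBar N (jF N) = jNF N := by
  have h := frickeBar_jdF N 1 N (one_mul N)
  have h1 : jdF N 1 (Dvd.intro _ (one_mul N)) = jF N := by
    apply Subtype.ext
    rw [coe_jdF_eq_qExpand, coe_jF, qExpand_one_apply]
  rw [h1] at h
  exact h

theorem frickeBar_jNF : frickeBar N (jNF N) = jF N := by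
  rw [← frickeBar_jF, frickeBar_frickeBar]

theorem order_coe_jF : ((jF N : FF N) : LaurentSeries Kbar).order = -1 := by
  rw [coe_jF]; exact Fermat.Agent.ES.P36.JDict26.order_jqK

theorem order_coe_jNF : ((jNF N : FF N) : LaurentSeries Kbar).order = -(N : ℤ) := by
  rw [jNF, coe_jdF_eq_qExpand]; exact Fermat.Agent.ES.P36.JDict26.order_qExpand_jqK N

theorem jF_ne_zero : jF N ≠ 0 := by
  intro h
  have := order_coe_jF N
  rw [h] at this
  simp at this

theorem jNF_ne_zero : jNF N ≠ 0 := by
  intro h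
  have := frickeBar_jNF N
  rw [h, map_zero] at this
  exact jF_ne_zero N this.symm

theorem chartInf_nontrivial : ∃ f : FF N, f ≠ 0 ∧ (chartInf N f).order ≠ 0 :=
  ⟨jF N, jF_ne_zero N, by rw [chartInf_apply, order_coe_jF]; decide⟩

theorem chartZero_nontrivial : ∃ f : FF N, f ≠ 0 ∧ (chartZero N f).order ≠ 0 :=
  ⟨jNF N, jNF_ne_zero N, by rw [chartZero_apply, frickeBar_jNF, order_coe_jF]; decide⟩

/-- **the cusp `∞`**: the place of the `q`-expansion. -/
def cuspInf : Place Kbar (FF N) :=
  LaurentPlace.embPlace (chartInf N) (chartInf_const N) (chartInf_nontrivial N)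

/-- **the cusp `0`**: the place of the Fricke expansion. -/
def cuspZero : Place Kbar (FF N) :=
  LaurentPlace.embPlace (chartZero N) (chartZero_const N) (chartZero_nontrivial N)

theorem ord_cuspInf {x : FF N} (hx : x ≠ 0) :
    (cuspInf N).ord x = (x : LaurentSeries Kbar).order :=
  embPlace_ord_eq (chartInf N) (chartInf_const N) (chartInf_nontrivial N) (jF_ne_zero N)
    (by rw [chartInf_apply, order_coe_jF]) hx

theorem ord_cuspZero {x : FF N} (hx : x ≠ 0) :
    (cuspZero N).ord x = ((frickeBar N x : FF N) : LaurentSeries Kbar).order :=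
  embPlace_ord_eq (chartZero N) (chartZero_const N) (chartZero_nontrivial N) (jNF_ne_zero N)
    (by rw [chartZero_apply, frickeBar_jNF, order_coe_jF]) hx

theorem frickeBar_ne_zero {x : FF N} (hx : x ≠ 0) : frickeBar N x ≠ 0 :=
  (map_ne_zero (frickeBar N)).mpr hx

theorem ord_cuspZero_eq {x : FF N} (hx : x ≠ 0) :
    (cuspZero N).ord x = (cuspInf N).ord (frickeBar N x) := by
  rw [ord_cuspZero N hx, ord_cuspInf N (frickeBar_ne_zero N hx)]

theorem ord_cuspInf_frickeBar {x : FF N} (hx : x ≠ 0) :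
    (cuspInf N).ord x = (cuspZero N).ord (frickeBar N x) := by
  rw [ord_cuspZero_eq N (frickeBar_ne_zero N hx), frickeBar_frickeBar]

theorem ord_cuspInf_jF : (cuspInf N).ord (jF N) = -1 := by
  rw [ord_cuspInf N (jF_ne_zero N), order_coe_jF]

theorem ord_cuspInf_jNF : (cuspInf N).ord (jNF N) = -(N : ℤ) := by
  rw [ord_cuspInf N (jNF_ne_zero N), order_coe_jNF]

theorem ord_cuspZero_jF : (cuspZero N).ord (jF N) = -(N : ℤ) := by
  rw [ord_cuspZero N (jF_ne_zero N), frickeBar_jF, order_coe_jNF]

theorem ord_cuspZero_jNF : (cuspZero N).ord (jNF N) = -1 := by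
  rw [ord_cuspZero N (jNF_ne_zero N), frickeBar_jNF, order_coe_jF]

/-- the two cusps are distinct as soon as `N > 1`. -/
theorem cuspInf_ne_cuspZero (hN : 1 < N) : cuspInf N ≠ cuspZero N := by
  intro h
  have h1 := ord_cuspInf_jF N
  rw [h, ord_cuspZero_jF] at h1
  have : (N : ℤ) = 1 := by omega
  have : N = 1 := by exact_mod_cast this
  omega

theorem isGen_jF : IsGen Kbar (jF N) :=
  Degree.isGen_jF N (realizeData N) (cuspData N)

theorem deg_place (v : Place Kbar (FF N)) : v.deg = 1 := deg_eq_one (isGen_jF N) v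

theorem deg_cuspInf : (cuspInf N).deg = 1 := deg_place N _

theorem deg_cuspZero : (cuspZero N).deg = 1 := deg_place N _

/-! ### Galois invariance -/

section Galois

/-- a coefficientwise field homomorphism preserves the order. -/
theorem order_coeffMap_hom {L : Type*} [Field L] (σ : L →+* L) (x : LaurentSeries L) :
    (coeffMap σ x).order = x.order := by
  by_cases hx : x = 0
  · rw [hx, map_zero]
  have hy : coeffMap σ x ≠ 0 := by
    intro h0
    apply hx
    ext n
    have := congrArg (fun s => HahnSeries.coeff s n) h0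
    simp only [coeffMap_coeff, HahnSeries.coeff_zero] at this
    exact (map_eq_zero σ).mp this
  apply le_antisymm
  · apply HahnSeries.order_le_of_coeff_ne_zero
    rw [coeffMap_coeff]
    exact (map_ne_zero σ).mpr (fun h => hx (HahnSeries.coeff_order_eq_zero.mp h))
  · apply HahnSeries.order_le_of_coeff_ne_zero
    have : (coeffMap σ x).coeff (coeffMap σ x).order ≠ 0 :=
      fun h => hy (HahnSeries.coeff_order_eq_zero.mp h)
    rw [coeffMap_coeff] at this
    exact fun h => this (by rw [h, map_zero])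

/-- a semilinear automorphism preserving the order function of a place fixes the place. -/
theorem smul_place_eq_of_ord {K F : Type*} [Field K] [Field F] [Algebra K F]
    (g : SemilinearAut K F) (v : Place K F) (h : ∀ x : F, v.ord (g⁻¹ • x) = v.ord x) :
    g • v = v := by
  apply Place.ext
  rw [SemilinearAut.smul_toValuationSubring]
  ext x
  rw [ValuationSubring.mem_pointwise_smul_iff_inv_smul_mem, ffp_mem_iff_ord_nonneg,
    ffp_mem_iff_ord_nonneg, h x]

abbrev galN (σ : Kbar ≃ₐ[ℚ] Kbar) : SemilinearAut Kbar (FF N) :=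
  arithmeticGalois (modularFunctionFieldFull N) σ

theorem smul_ne_zero_iff (g : SemilinearAut Kbar (FF N)) (x : FF N) : g • x ≠ 0 ↔ x ≠ 0 := by
  rw [SemilinearAut.smul_def]
  exact map_ne_zero_iff _ (SemilinearAut.toRingAut g).injective

theorem ord_cuspInf_smul (σ : Kbar ≃ₐ[ℚ] Kbar) (x : FF N) :
    (cuspInf N).ord (galN N σ • x) = (cuspInf N).ord x := by
  rcases eq_or_ne x 0 with rfl | hx
  · rw [smul_zero]
  rw [ord_cuspInf N ((smul_ne_zero_iff N _ x).mpr hx), ord_cuspInf N hx,
    coe_arithmeticGalois_smul, order_coeffMap_hom]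

theorem ord_cuspZero_smul (σ : Kbar ≃ₐ[ℚ] Kbar) (x : FF N) :
    (cuspZero N).ord (galN N σ • x) = (cuspZero N).ord x := by
  rcases eq_or_ne x 0 with rfl | hx
  · rw [smul_zero]
  rw [ord_cuspZero_eq N ((smul_ne_zero_iff N _ x).mpr hx), ord_cuspZero_eq N hx,
    frickeBar_smul, ord_cuspInf_smul]

/-- **the cusp `∞` is `G_ℚ`-fixed.** -/
theorem arithmeticGalois_smul_cuspInf (σ : Kbar ≃ₐ[ℚ] Kbar) :
    arithmeticGalois (modularFunctionFieldFull N) σ • cuspInf N = cuspInf N := by
  apply smul_place_eq_of_ord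
  intro x
  rw [← map_inv]
  exact ord_cuspInf_smul N σ⁻¹ x

/-- **the cusp `0` is `G_ℚ`-fixed.** -/
theorem arithmeticGalois_smul_cuspZero (σ : Kbar ≃ₐ[ℚ] Kbar) :
    arithmeticGalois (modularFunctionFieldFull N) σ • cuspZero N = cuspZero N := by
  apply smul_place_eq_of_ord
  intro x
  rw [← map_inv]
  exact ord_cuspZero_smul N σ⁻¹ x

end Galois

/-! ### the cuspidal class -/

/-- the divisor `(0) − (∞)`. -/
def cuspDiv : Divisor.degZero (K := Kbar) (F := FF N) :=
  ⟨Finsupp.single (cuspZero N) 1 - Finsupp.single (cuspInf N) 1, by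
    rw [Divisor.mem_degZero, map_sub, Divisor.degree_single, Divisor.degree_single,
      deg_cuspInf, deg_cuspZero, sub_self]⟩

@[simp] theorem coe_cuspDiv :
    ((cuspDiv N : Divisor.degZero (K := Kbar) (F := FF N)) : Divisor Kbar (FF N)) =
      Finsupp.single (cuspZero N) 1 - Finsupp.single (cuspInf N) 1 := rfl

/-- **the cuspidal class `c = cl((0) − (∞)) ∈ J₀(N)(ℚ̄)`.** -/
def cuspClass : JZero N := Pic0.mk (cuspDiv N)

/-- **`c` is `G_ℚ`-fixed.** -/
theorem smul_cuspClass (σ : Kbar ≃ₐ[ℚ] Kbar) : σ • cuspClass N = cuspClass N := by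
  rw [galois_smul_pic0_def, cuspClass, SemilinearAut.pic0_smul_mk]
  congr 1
  apply Subtype.ext
  rw [SemilinearAut.coe_degZeroSMulHom, coe_cuspDiv, smul_sub, SemilinearAut.smul_single,
    SemilinearAut.smul_single, arithmeticGalois_smul_cuspInf, arithmeticGalois_smul_cuspZero]

theorem cuspClass_mem_fixedPoints :
    cuspClass N ∈ FixedPoints.addSubgroup (Kbar ≃ₐ[ℚ] Kbar) (JZero N) := fun σ =>
  smul_cuspClass N σ

end Fermat.Agent.MZ.CUSP.CuspPlaces1
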