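/-
PROGRAMME MZ (S15), chapter CUSP (helper1): **the cuspidal class `c = cl((0) − (∞))` of `X₀(p)` is
nonzero** for `p` prime, `p ∉ {2, 3, 5, 7, 13}`.

* `genus_eq_zero_of_simple_pole` : a function field (over an algebraically closed field of
  characteristic `0`) containing a function with a single, simple pole has genus `0`
  (Riemann–Hurwitz `FFGenus6.genus_eq_of_isGen` for a generator of degree `1`);
* `genusFormula_prime_pos` : `genusFormula p > 0` for `p` prime, `p ∉ {2, 3, 5, 7, 13}`;
* **`cuspClass_ne_zero`** (with `Agent.S24` : `genus (FF p) = genusFormula p`).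
-/
import Mathlib
import Fermat.Agent.MZ.CUSP.CuspPlaces1
import Fermat.Agent.X0.FFGenus6
import Fermat.Agent.X0.HasCanDivInst
import Fermat.Agent.S24

set_option autoImplicit false
set_option linter.unusedSectionVars false
set_option linter.unusedVariables false
set_option linter.style.longLine false
set_option linter.style.haveILetI false
set_option synthInstance.maxHeartbeats 400000
set_option maxHeartbeats 1000000

open AlgebraicCurve ModularCurve IntermediateField

noncomputable section

namespace Fermat.Agent.MZ.CUSP.CuspNonzero1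

open Fermat.Agent.X0 Fermat.Agent.X0.FF
open Fermat.Agent.MZ.CUSP.CuspPlaces1

/-! ### genus zero from a function of degree one -/

section Generic

variable {K F : Type*} [Field K] [Field F] [Algebra K F] [IsAlgClosed K] [CharZero K]

/-- a function with a single simple pole is a generator of degree one. -/
theorem finrank_eq_one_of_simple_pole {x f : F} (hx : IsGen K x) (w : Place K F)
    (hpole : w.ord f = -1) (hother : ∀ v : Place K F, v ≠ w → 0 ≤ v.ord f) :
    ∃ hf : IsGen K f, Module.finrank K⟮f⟯ F = 1 := by
  have htr : Transcendental K f := by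
    intro halg
    obtain ⟨c, hc⟩ := eq_algebraMap_of_isAlgebraic halg
    rw [hc, ffp_ord_algebraMap] at hpole
    omega
  have hf : IsGen K f := hx.of_transcendental htr
  refine ⟨hf, ?_⟩
  have hset : {v : Place K F | v.ord f < 0} = {w} := by
    ext v
    simp only [Set.mem_ofPred_eq, Set.mem_singleton_iff]
    constructor
    · intro hv
      by_contra hne
      have := hother v hne
      omega
    · rintro rfl
      rw [hpole]; decide
  have h1 := sum_ord_poles hf
  have h2 : ∑ᶠ (v : Place K F) (_ : v.ord f < 0), -v.ord f =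
      ∑ᶠ v ∈ {v : Place K F | v.ord f < 0}, -v.ord f := rfl
  rw [h2, hset, finsum_mem_singleton, hpole] at h1
  have : ((Module.finrank K⟮f⟯ F : ℕ) : ℤ) = 1 := by rw [← h1]; norm_num
  exact_mod_cast this

/-- **a function field with a function having a single simple pole has genus zero.** -/
theorem genus_eq_zero_of_simple_pole [HasCanonicalDivisor (K := K) (F := F)] {x f : F}
    (hx : IsGen K x) (w : Place K F)
    (hpole : w.ord f = -1) (hother : ∀ v : Place K F, v ≠ w → 0 ≤ v.ord f) :
    genus K F = 0 := by
  classical
  obtain ⟨hf, hdeg⟩ := finrank_eq_one_of_simple_pole hx w hpole hother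
  -- all fibres are simple
  have hS : ∀ c ∉ (∅ : Finset K), ∀ v : Place K F, 0 < v.ord (f - algebraMap K F c) →
      v.ord (f - algebraMap K F c) = 1 := by
    intro c _ v hv
    have hfin := finite_fibre hf c
    have h1 := sum_ord_fibre hf c
    have h2 : ∑ᶠ (u : Place K F) (_ : 0 < u.ord (f - algebraMap K F c)),
        u.ord (f - algebraMap K F c) =
        ∑ᶠ u ∈ {u : Place K F | 0 < u.ord (f - algebraMap K F c)},
          u.ord (f - algebraMap K F c) := rfl
    rw [h2, finsum_mem_eq_finite_toFinset_sum _ hfin, hdeg] at h1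
    have hvm : v ∈ hfin.toFinset := by
      rw [Set.Finite.mem_toFinset]; exact hv
    have hle : v.ord (f - algebraMap K F c) ≤
        ∑ u ∈ hfin.toFinset, u.ord (f - algebraMap K F c) :=
      Finset.single_le_sum (f := fun u : Place K F => u.ord (f - algebraMap K F c))
        (fun u hu => by
          rw [Set.Finite.mem_toFinset] at hu
          exact le_of_lt hu) hvm
    rw [h1] at hle
    push_cast at hle
    omega
  have hpoles : Nat.card {v : Place K F // v.ord f < 0} = 1 := by
    have hset : {v : Place K F | v.ord f < 0} = {w} := by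
      ext v
      simp only [Set.mem_ofPred_eq, Set.mem_singleton_iff]
      constructor
      · intro hv
        by_contra hne
        have := hother v hne
        omega
      · rintro rfl
        rw [hpole]; decide
    have : Nat.card {v : Place K F // v.ord f < 0} = Nat.card ({w} : Set (Place K F)) := by
      rw [← hset]; rfl
    rw [this, Nat.card_eq_fintype_card, Fintype.card_unique]
  rw [genus_eq_of_isGen hf ∅ hS, Finset.sum_empty, hdeg, hpoles]
  norm_num

end Generic

/-! ### numerics of the genus formula at prime level -/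

section Numerics

theorem cuspCount_prime {p : ℕ} (hp : p.Prime) : cuspCount p = 2 := by
  rw [cuspCount, hp.divisors, Finset.sum_pair hp.one_lt.ne]
  rw [Nat.div_one, Nat.div_self hp.pos, Nat.gcd_one_left, Nat.gcd_one_right, Nat.totient_one]

/-- the number of roots of a monic quadratic in a field is at most `2`. -/
theorem card_quadratic_roots_le {k : Type*} [Field k] [Finite k] (b c : k) :
    Nat.card {x : k // x ^ 2 + b * x + c = 0} ≤ 2 := by
  classical
  haveI := Fintype.ofFinite k
  set P : Polynomial k := Polynomial.X ^ 2 + Polynomial.C b * Polynomial.X + Polynomial.C c with hP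
  have hdeg : P.natDegree = 2 := by
    rw [hP]; compute_degree!
  have hP0 : P ≠ 0 := by
    intro h; rw [h] at hdeg; simp at hdeg
  have hsub : ∀ x : {x : k // x ^ 2 + b * x + c = 0}, (x : k) ∈ P.roots.toFinset := by
    intro x
    rw [Multiset.mem_toFinset, Polynomial.mem_roots hP0, Polynomial.IsRoot, hP]
    simp only [Polynomial.eval_add, Polynomial.eval_pow, Polynomial.eval_X, Polynomial.eval_mul,
      Polynomial.eval_C]
    exact x.2
  have hinj : Function.Injective
      (fun x : {x : k // x ^ 2 + b * x + c = 0} => (⟨(x : k), hsub x⟩ : P.roots.toFinset)) := by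
    intro x y h
    exact Subtype.ext (congrArg (fun z : P.roots.toFinset => (z : k)) h)
  have h1 := Nat.card_le_card_of_injective _ hinj
  have h2 : Nat.card P.roots.toFinset ≤ 2 := by
    rw [Nat.card_eq_fintype_card, Fintype.card_coe]
    calc P.roots.toFinset.card ≤ Multiset.card P.roots := Multiset.toFinset_card_le _
      _ ≤ P.natDegree := Polynomial.card_roots' P
      _ = 2 := hdeg
  exact h1.trans h2

theorem nuTwo_prime_le {p : ℕ} (hp : p.Prime) : nuTwo p ≤ 2 := by
  haveI : Fact p.Prime := ⟨hp⟩
  have h := card_quadratic_roots_le (k := ZMod p) 0 1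
  simp only [zero_mul, add_zero] at h
  exact h

theorem nuThree_prime_le {p : ℕ} (hp : p.Prime) : nuThree p ≤ 2 := by
  haveI : Fact p.Prime := ⟨hp⟩
  have h := card_quadratic_roots_le (k := ZMod p) 1 1
  simp only [one_mul] at h
  exact h

theorem nuTwo_eleven : nuTwo 11 = 0 := by
  rw [nuTwo, Nat.card_eq_zero]
  left
  constructor
  rintro ⟨x, hx⟩
  revert x
  decide

theorem nuThree_eleven : nuThree 11 = 0 := by
  rw [nuThree, Nat.card_eq_zero]
  left
  constructor
  rintro ⟨x, hx⟩
  revert x
  decide

/-- **`g(X₀(p)) > 0`** for `p` prime, `p ∉ {2, 3, 5, 7, 13}`. -/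
theorem genusFormula_prime_pos {p : ℕ} (hp : p.Prime) (hp' : p ∉ ({2, 3, 5, 7, 13} : Finset ℕ)) :
    0 < genusFormula p := by
  have hpsi : dedekindPsi p = p + 1 := Fermat.Agent.IG.PR.Counting20.psi_prime hp
  rw [genusFormula, hpsi, cuspCount_prime hp]
  have h2 : (nuTwo p : ℚ) ≤ 2 := by exact_mod_cast nuTwo_prime_le hp
  have h3 : (nuThree p : ℚ) ≤ 2 := by exact_mod_cast nuThree_prime_le hp
  by_cases h17 : 17 ≤ p
  · have : (17 : ℚ) ≤ p := by exact_mod_cast h17
    push_cast
    linarith
  · have hlt : p < 17 := not_le.mp h17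
    simp only [Finset.mem_insert, Finset.mem_singleton, not_or] at hp'
    have h11 : p = 11 := by
      interval_cases p <;> first | rfl | (exfalso; revert hp; decide) | (exfalso; omega)
    subst h11
    rw [nuTwo_eleven, nuThree_eleven]
    norm_num

end Numerics

/-! ### the cuspidal class is nonzero -/

section Main

/-- **`c = cl((0) − (∞)) ≠ 0` in `J₀(p)`**, `p` prime, `p ∉ {2, 3, 5, 7, 13}`. -/
theorem cuspClass_ne_zero {p : ℕ} [NeZero p] (hp : p.Prime)
    (hp' : p ∉ ({2, 3, 5, 7, 13} : Finset ℕ)) : cuspClass p ≠ 0 := by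
  classical
  intro h0
  have hprin : ((cuspDiv p : Divisor.degZero (K := Kbar) (F := FF p)) : Divisor Kbar (FF p)) ∈
      Divisor.principal (K := Kbar) (F := FF p) := by
    have h1 := (QuotientAddGroup.eq_zero_iff (cuspDiv p)).mp h0
    exact AddSubgroup.mem_addSubgroupOf.mp h1
  obtain ⟨f, hf0, hf⟩ := hprin
  have hne := cuspInf_ne_cuspZero p hp.one_lt
  have hpole : (cuspInf p).ord f = -1 := by
    rw [← hf, coe_cuspDiv, Finsupp.sub_apply, Finsupp.single_apply, Finsupp.single_apply,
      if_neg hne.symm, if_pos rfl]
    norm_num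
  have hother : ∀ v : Place Kbar (FF p), v ≠ cuspInf p → 0 ≤ v.ord f := by
    intro v hv
    rw [← hf, coe_cuspDiv, Finsupp.sub_apply, Finsupp.single_apply, Finsupp.single_apply,
      if_neg (Ne.symm hv)]
    split_ifs <;> norm_num
  haveI := Fermat.Agent.X0.HasCanDivInst.hasCanonicalDivisor' p
  have hg : genus Kbar (FF p) = 0 :=
    genus_eq_zero_of_simple_pole (isGen_jF p) (cuspInf p) hpole hother
  have h24 := Fermat.Agent.S24.result p
  have hpos := genusFormula_prime_pos hp hp'
  rw [← h24] at hpos
  have : genus Kbar (FF p) = genus (AlgebraicClosure ℚ) ↥(modularFunctionFieldBar p) := rfl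
  rw [← this, hg] at hpos
  simp at hpos

end Main

end Fermat.Agent.MZ.CUSP.CuspNonzero1
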