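/-
PROGRAMME MZ (S15), chapter CUSP (helper1): **the modular unit `Δ(q^p)/Δ(q)` and the order of the
cuspidal class**: `(p − 1) • cl((0) − (∞)) = 0` in `J₀(p)`, `p` prime.

* `isIntegral_adjoin_of_isNice` : a nice series (`QExpMem19.IsNice`) is integral over `ℚbar[j]`
  (the coefficients of `∏ (X − g∘γ)` are POLYNOMIALS in `j`, `X0.intg_core`);
* `ord_nonneg_of_isNice` : a nice element of `FF N` is regular wherever `j` is;
* `deltaUnit p : FF p` (`= Δ(q^p)/Δ(q)`), `ord_deltaUnit_of_finite = 0`, `ord_cuspInf_deltaUnit = p − 1`;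
* `poles_jF_prime` : at prime level the poles of `j` are the two cusps;
* **`sub_one_smul_cuspClass`** : `(p − 1) • cuspClass p = 0`;
* **`exists_maximal_of_torsion`** (abstract) and **`exists_eisenstein_maximal`** : a maximal ideal `P` of
  any commutative ring `T` acting on `J₀(p)` with `P ⊇ Ann_T(c)` and residue characteristic `l' ∣ p − 1`.
-/
import Mathlib
import Fermat.Agent.MZ.CUSP.CuspNonzero1
import Fermat.Agent.RED.BASE.DeltaMem19
import Fermat.Agent.RED.PUR.PlaceIntegral3
import Fermat.Agent.IG.PR.TransferPoly20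
import Fermat.Agent.RED.TOP.FbarFacts20

set_option autoImplicit false
set_option linter.unusedSectionVars false
set_option linter.unusedVariables false
set_option linter.style.longLine false
set_option linter.style.haveILetI false
set_option synthInstance.maxHeartbeats 400000
set_option maxHeartbeats 1000000

open AlgebraicCurve ModularCurve UpperHalfPlane Polynomial IntermediateField
open scoped MatrixGroups

noncomputable section

namespace Fermat.Agent.MZ.CUSP.CuspUnit1

open Fermat.Agent.X0 Fermat.Agent.X0.Analytic Fermat.Agent.X0.FF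
open Fermat.Agent.RED.BASE.QExpMem19
open Fermat.Agent.MZ.CUSP.CuspPlaces1

/-! ### nice series are integral over `ℚbar[j]` -/

section Integral

variable {N : ℕ} [NeZero N]

/-- A nice series is integral over `ℚbar[j]`. -/
theorem isIntegral_adjoin_of_isNice {f : LaurentSeries Kbar} {g : ℍ → ℂ} (h : IsNice N f g) :
    IsIntegral (Algebra.adjoin Kbar {jqK}) f := by
  classical
  have : Fintype (SL(2, ℤ) ⧸ CongruenceSubgroup.Gamma0 N) := Fintype.ofFinite _
  let rep : SL(2, ℤ) ⧸ CongruenceSubgroup.Gamma0 N → SL(2, ℤ) := Quotient.out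
  have hrep : ∀ x, (rep x : SL(2, ℤ) ⧸ CongruenceSubgroup.Gamma0 N) = x := fun x =>
    QuotientGroup.out_eq' x
  choose T hT using fun x : SL(2, ℤ) ⧸ CongruenceSubgroup.Gamma0 N => h.cusp (rep x)⁻¹
  let x₀ : SL(2, ℤ) ⧸ CongruenceSubgroup.Gamma0 N := ((1 : SL(2, ℤ)) : _)
  -- the permutation of the cosets
  have hperm : ∀ δ : SL(2, ℤ), ∃ σ : Equiv.Perm (SL(2, ℤ) ⧸ CongruenceSubgroup.Gamma0 N),
      ∀ x z, compSL g (rep x)⁻¹ (δ • z) = compSL g (rep (σ x))⁻¹ z := by
    intro δ
    refine ⟨MulAction.toPerm δ⁻¹, fun x z => ?_⟩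
    set a := rep x with ha
    set b := rep ((MulAction.toPerm δ⁻¹ : Equiv.Perm _) x) with hb
    have hcoset : ((b : SL(2, ℤ)) : SL(2, ℤ) ⧸ CongruenceSubgroup.Gamma0 N)
        = ((δ⁻¹ * a : SL(2, ℤ)) : SL(2, ℤ) ⧸ CongruenceSubgroup.Gamma0 N) := by
      rw [hb, hrep, MulAction.toPerm_apply]
      conv_lhs => rw [← hrep x]
      rfl
    have hmem : b⁻¹ * (δ⁻¹ * a) ∈ CongruenceSubgroup.Gamma0 N := QuotientGroup.eq.mp hcoset
    have hmem' : (b⁻¹ * (δ⁻¹ * a))⁻¹ ∈ CongruenceSubgroup.Gamma0 N := inv_mem hmem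
    have hinv' := h.inv _ hmem'
    show g (a⁻¹ • δ • z) = g (b⁻¹ • z)
    have h1 : a⁻¹ • δ • z = (b⁻¹ * (δ⁻¹ * a))⁻¹ • (b⁻¹ • z) := by
      rw [← mul_smul, ← mul_smul]
      congr 1
      group
    rw [h1]
    exact congrFun hinv' (b⁻¹ • z)
  have hcore := intg_core N (fun x => compSL g (rep x)⁻¹) T
    (fun x => compSL_mem_HolH h.hol _) hT hperm
  -- the expansion at the trivial coset
  have hx₀ : T x₀ = qExpand Kbar N f := by
    have hmem : (rep x₀)⁻¹ ∈ CongruenceSubgroup.Gamma0 N := by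
      have h1 : ((rep x₀ : SL(2, ℤ)) : SL(2, ℤ) ⧸ CongruenceSubgroup.Gamma0 N)
          = ((1 : SL(2, ℤ)) : _) := hrep x₀
      have h2 := QuotientGroup.eq.mp h1
      rwa [mul_one] at h2
    have h3 := hT x₀
    rw [h.inv _ hmem] at h3
    have h4 : IntgQN N g (toC (qExpand Kbar N f)) := by
      rw [toC, ModularCurve.coeffMap_qExpand]
      exact h.qexp.qExpand N
    exact toC_injective (intg_qn_unique N h3 h4)
  -- the base embedding, from the polynomial ring `ℚbar[j]`
  let A : Subalgebra Kbar (LaurentSeries Kbar) := Algebra.adjoin Kbar {jqK}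
  let φ : A →+* LaurentSeries Kbar := (qExpand Kbar N).comp A.val.toRingHom
  set Q : (LaurentSeries Kbar)[X] := ∏ x, (X - C (T x)) with hQ
  have hQm : Q.Monic := monic_prod_of_monic _ _ fun x _ => monic_X_sub_C (T x)
  have hl : Q ∈ Polynomial.lifts φ := by
    rw [Polynomial.lifts_iff_coeff_lifts]
    intro k
    obtain ⟨p, hp, -⟩ := hcore k
    refine ⟨⟨aeval jqK p, Polynomial.aeval_mem_adjoin_singleton Kbar jqK⟩, ?_⟩
    show qExpand Kbar N (aeval jqK p) = Q.coeff k
    rw [hp, qExpand_aeval]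
  obtain ⟨p, hp, hdeg, hm⟩ := Polynomial.lifts_and_degree_eq_and_monic hl hQm
  refine ⟨p, hm, ?_⟩
  apply (qExpand Kbar N).injective
  rw [map_zero, Polynomial.hom_eval₂]
  show eval₂ φ (qExpand Kbar N f) p = 0
  rw [← Polynomial.eval_map, hp, ← hx₀, hQ, eval_prod]
  exact Finset.prod_eq_zero (Finset.mem_univ x₀) (by simp)

/-- A nice element of `FF N` is integral over `ℚbar[j]`. -/
theorem isIntegral_polyRing_of_isNice (w : FF N) {g : ℍ → ℂ}
    (h : IsNice N (w : LaurentSeries Kbar) g) : IsIntegral (polyRing Kbar (jF N)) w := by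
  apply Fermat.Agent.RED.PUR.PlaceIntegral3.isIntegral_polyRing_of_map (K := Kbar)
    (F' := LaurentSeries Kbar)
  have h1 : algebraMap (FF N) (LaurentSeries Kbar) (jF N) = jqK := by
    show ((jF N : FF N) : LaurentSeries Kbar) = _
    rw [coe_jF]
  rw [h1]
  exact isIntegral_adjoin_of_isNice h

/-- **A nice element of `FF N` is regular wherever `j` is.** -/
theorem ord_nonneg_of_isNice (w : FF N) {g : ℍ → ℂ} (h : IsNice N (w : LaurentSeries Kbar) g)
    (v : Place Kbar (FF N)) (hv : 0 ≤ v.ord (jF N)) : 0 ≤ v.ord w := by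
  rw [← ffp_mem_iff_ord_nonneg] at hv ⊢
  exact intRing_le_of_mem v hv ⟨w, isIntegral_polyRing_of_isNice w h⟩

end Integral

/-! ### the modular unit `Δ(q^p)/Δ(q)` -/

section Unit

open Fermat.Agent.IG.PR.Interface20 Fermat.Agent.RED.BASE.DeltaMem19 Fermat.Agent.IG.AN.DeltaQuot19
open Fermat.Agent.IG.PR.TransferPoly20 Fermat.Agent.ES.N34.ModEqBar23

variable (p : ℕ) [NeZero p]

/-- the modular unit `Δ(q^p)/Δ(q)` as an element of `FF p`. -/
def deltaUnit : FF p := ⟨uq Kbar p, uq_mem p dvd_rfl⟩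

/-- its inverse `Δ(q)/Δ(q^p)`. -/
def deltaUnitInv : FF p := ⟨uqInv p Kbar, uqInv_mem p dvd_rfl⟩

theorem deltaUnitInv_mul_deltaUnit : deltaUnitInv p * deltaUnit p = 1 :=
  Subtype.ext (uqInv_mul_uq p Kbar)

theorem deltaUnit_ne_zero : deltaUnit p ≠ 0 := by
  intro h
  have := deltaUnitInv_mul_deltaUnit p
  rw [h, mul_zero] at this
  exact zero_ne_one this

theorem deltaUnitInv_ne_zero : deltaUnitInv p ≠ 0 := by
  intro h
  have := deltaUnitInv_mul_deltaUnit p
  rw [h, zero_mul] at this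
  exact zero_ne_one this

/-- **`Δ(q^p)/Δ(q)` has neither zeros nor poles where `j` is regular.** -/
theorem ord_deltaUnit_of_finite (v : Place Kbar (FF p)) (hv : 0 ≤ v.ord (jF p)) :
    v.ord (deltaUnit p) = 0 := by
  have h1 : 0 ≤ v.ord (deltaUnit p) :=
    ord_nonneg_of_isNice (deltaUnit p) (g := deltaQuot p) (isNice_deltaQuot p) v hv
  have h2 : 0 ≤ v.ord (deltaUnitInv p) :=
    ord_nonneg_of_isNice (deltaUnitInv p) (g := deltaQuotInv p) (isNice_deltaQuotInv p) v hv
  have h3 := v.ord_mul (deltaUnitInv_ne_zero p) (deltaUnit_ne_zero p)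
  rw [deltaUnitInv_mul_deltaUnit, Place.ord_one] at h3
  omega

theorem order_uq : (uq Kbar p).order = (p : ℤ) - 1 := by
  have hd := deltaq_ne_zero Kbar
  have hq : qExpand Kbar p (deltaq Kbar) ≠ 0 :=
    Fermat.Agent.IG.PR.ThetaV1.qExpand_ne_zero p hd
  have h1 : uq Kbar p * deltaq Kbar = qExpand Kbar p (deltaq Kbar) := by
    rw [uq_eq_div, div_mul_cancel₀ _ hd]
  have hu : uq Kbar p ≠ 0 := by
    intro h
    rw [h, zero_mul] at h1
    exact hq h1.symm
  have h2 := congrArg HahnSeries.order h1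
  rw [HahnSeries.order_mul hu hd, order_deltaq, Fermat.Agent.IG.PR.ThetaV1.order_qExpand,
    order_deltaq] at h2
  linarith

theorem ord_cuspInf_deltaUnit : (cuspInf p).ord (deltaUnit p) = (p : ℤ) - 1 := by
  rw [ord_cuspInf p (deltaUnit_ne_zero p)]
  exact order_uq p

/-- **at prime level the poles of `j` are the two cusps.** -/
theorem poles_jF_prime (hp : p.Prime) (v : Place Kbar (FF p)) (hv : v.ord (jF p) < 0) :
    v = cuspInf p ∨ v = cuspZero p := by
  classical
  have hne := cuspInf_ne_cuspZero p hp.one_lt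
  have hmem := mem_of_ord_neg (isGen_jF p) {cuspInf p, cuspZero p}
    (by
      intro w hw
      rcases Finset.mem_insert.mp hw with rfl | hw
      · rw [ord_cuspInf_jF]; decide
      · rw [Finset.mem_singleton.mp hw, ord_cuspZero_jF]
        have : (0 : ℤ) < p := by exact_mod_cast hp.pos
        omega)
    (by
      rw [Finset.sum_pair hne, ord_cuspInf_jF, ord_cuspZero_jF,
        Degree.finrank_adjoin p (realizeData p) (cuspData p),
        Fermat.Agent.IG.PR.Counting20.psi_prime hp]
      push_cast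
      ring) v hv
  rcases Finset.mem_insert.mp hmem with h | h
  · exact Or.inl h
  · exact Or.inr (Finset.mem_singleton.mp h)

/-- **`div (Δ(q^p)/Δ(q)) = (p − 1) ((∞) − (0))`**, hence **`(p − 1) • c = 0`**. -/
theorem sub_one_smul_cuspClass (hp : p.Prime) : ((p : ℤ) - 1) • cuspClass p = 0 := by
  classical
  haveI : HasPrincipalDivisors Kbar (FF p) :=
    Fermat.Agent.RED.TOP.FbarFacts20.hasPrincipalDivisors_bar p
  have hne := cuspInf_ne_cuspZero p hp.one_lt
  obtain ⟨D, hD, hdeg⟩ := HasPrincipalDivisors.exists_divisor (K := Kbar) (deltaUnit p)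
    (deltaUnit_ne_zero p)
  -- the support of `D`
  have hsupp : ∀ v : Place Kbar (FF p), v ≠ cuspInf p → v ≠ cuspZero p → D v = 0 := by
    intro v h1 h2
    rw [hD]
    apply ord_deltaUnit_of_finite
    by_contra hneg
    rcases poles_jF_prime p hp v (not_le.mp hneg) with h | h
    · exact h1 h
    · exact h2 h
  have hDeq : D = Finsupp.single (cuspInf p) (D (cuspInf p)) +
      Finsupp.single (cuspZero p) (D (cuspZero p)) := by
    ext v
    rw [Finsupp.add_apply, Finsupp.single_apply, Finsupp.single_apply]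
    by_cases h1 : cuspInf p = v
    · subst h1
      rw [if_pos rfl, if_neg (Ne.symm hne), add_zero]
    · by_cases h2 : cuspZero p = v
      · subst h2
        rw [if_neg h1, if_pos rfl, zero_add]
      · rw [if_neg h1, if_neg h2, add_zero]
        exact hsupp v (Ne.symm h1) (Ne.symm h2)
  have hinf : D (cuspInf p) = (p : ℤ) - 1 := by rw [hD, ord_cuspInf_deltaUnit]
  have hzero : D (cuspZero p) = -((p : ℤ) - 1) := by
    have h := hdeg
    rw [hDeq, map_add, Divisor.degree_single, Divisor.degree_single, deg_cuspInf,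
      deg_cuspZero, hinf] at h
    push_cast at h
    linarith
  -- `D = -(p - 1) • ((0) - (∞))` is principal
  have hDc : D = (-((p : ℤ) - 1)) •
      ((cuspDiv p : Divisor.degZero (K := Kbar) (F := FF p)) : Divisor Kbar (FF p)) := by
    rw [hDeq, hinf, hzero, coe_cuspDiv, smul_sub, Finsupp.smul_single, Finsupp.smul_single,
      smul_eq_mul, mul_one]
    ext v
    simp only [Finsupp.add_apply, Finsupp.sub_apply, Finsupp.single_apply]
    split_ifs <;> ring
  have hprin : D ∈ Divisor.principal (K := Kbar) (F := FF p) :=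
    ⟨deltaUnit p, deltaUnit_ne_zero p, hD⟩
  have hmem : (-((p : ℤ) - 1)) • cuspDiv p ∈
      (Divisor.principal (K := Kbar) (F := FF p)).addSubgroupOf
        (Divisor.degZero (K := Kbar) (F := FF p)) := by
    rw [AddSubgroup.mem_addSubgroupOf, AddSubgroupClass.coe_zsmul, ← hDc]
    exact hprin
  have h0 : (-((p : ℤ) - 1)) • cuspClass p = 0 := by
    rw [cuspClass]
    have : Pic0.mk ((-((p : ℤ) - 1)) • cuspDiv p) = 0 :=
      (QuotientAddGroup.eq_zero_iff _).mpr hmem
    rw [← this]
    exact (QuotientAddGroup.mk_zsmul _ _ _).symm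
  rw [_root_.neg_smul, neg_eq_zero] at h0
  exact h0

end Unit

end Fermat.Agent.MZ.CUSP.CuspUnit1
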