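/-
PROGRAMME MZ (S15), chapter CUSP (helper1): **the Hecke operators on the cusps `∞`, `0` of `X₀(N)`**:
`T_ℓ (∞) = (ℓ + 1) (∞)`, `T_ℓ (0) = (ℓ + 1) (0)` as divisors (`ℓ` prime, `ℓ ∤ N`), hence
`T_ℓ c = (ℓ + 1) c` for the cuspidal class `c = cl((0) − (∞))`.

* generic: `restrictAlong_embPlace`, `ramificationIndexAlong_embPlace` (a chart `τ'` of `F'` with
  `order (τ' (φ x)) = e · order (τ x)` lies over the place of the chart `τ` with index `e`);
  `correspondence_single_two` (a correspondence at a place with two known points in the fibre that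
  exhaust the degree);
* the four charts at level `N ℓ` (`q`-expansion, Atkin–Lehner chart `W` of `Conjugates11.exists_W`,
  and their Fricke twists);
* **`heckeDivBar_cuspInf`, `heckeDivBar_cuspZero`**, **`heckeOperatorBar_cuspClass`**,
  `heckeGen_smul_cuspClass` (in the Prelude's `HeckeAlg`-module structure).
-/
import Mathlib
import Fermat.Agent.MZ.CUSP.CuspPlaces1
import Fermat.Agent.ES.HECKE.PointFormula28
import Fermat.Agent.ES.HECKE.InputsFinal15
import Fermat.Agent.MP.FUNC.FrickeDeg1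

set_option autoImplicit false
set_option linter.unusedSectionVars false
set_option linter.unusedVariables false
set_option linter.style.longLine false
set_option linter.style.haveILetI false
set_option synthInstance.maxHeartbeats 400000
set_option maxHeartbeats 1000000

open AlgebraicCurve ModularCurve

noncomputable section

namespace Fermat.Agent.MZ.CUSP.CuspHecke1

open Fermat.Agent.X0 Fermat.Agent.X0.FF
open Fermat.Agent.ES.N34.ModEqBar23 Fermat.Agent.ES.N34.FrickeFK8
open Fermat.Agent.ES.HECKE.PointFormula28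
open Fermat.Agent.MZ.CUSP.CuspPlaces1

/-! ### generic: charts and restriction of places -/

section Generic

variable {K F F' : Type*} [Field K] [Field F] [Field F'] [Algebra K F] [Algebra K F']
  [IsAlgClosed K] [CharZero K]

/-- a chart of index one: an embedding into Laurent series, trivial on constants, with an element of
order `-1`. -/
structure IsChart (τ : F →+* LaurentSeries K) : Prop where
  const : ∀ c : K, τ (algebraMap K F c) = HahnSeries.C c
  exists_neg_one : ∃ a : F, a ≠ 0 ∧ (τ a).order = -1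

theorem IsChart.nontrivial {τ : F →+* LaurentSeries K} (h : IsChart (K := K) τ) :
    ∃ f : F, f ≠ 0 ∧ (τ f).order ≠ 0 := by
  obtain ⟨a, ha, h1⟩ := h.exists_neg_one
  exact ⟨a, ha, by rw [h1]; decide⟩

/-- the place of a chart. -/
def IsChart.place {τ : F →+* LaurentSeries K} (h : IsChart (K := K) τ) : Place K F :=
  LaurentPlace.embPlace τ h.const h.nontrivial

theorem IsChart.ord_place {τ : F →+* LaurentSeries K} (h : IsChart (K := K) τ) {f : F}
    (hf : f ≠ 0) : h.place.ord f = (τ f).order := by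
  obtain ⟨a, ha, h1⟩ := h.exists_neg_one
  exact embPlace_ord_eq τ h.const h.nontrivial ha h1 hf

theorem IsChart.mem_place_iff {τ : F →+* LaurentSeries K} (h : IsChart (K := K) τ) {f : F}
    (hf : f ≠ 0) : f ∈ h.place.toValuationSubring ↔ 0 ≤ (τ f).order :=
  LaurentPlace.mem_embPlace_iff τ h.const h.nontrivial hf

variable {τ : F →+* LaurentSeries K} {τ' : F' →+* LaurentSeries K}

/-- a chart `τ'` upstairs with `order (τ' (φ x)) = e · order (τ x)` lies over the place of `τ`. -/
theorem restrictAlong_place (h : IsChart (K := K) τ) (h' : IsChart (K := K) τ')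
    (φ : F →ₐ[K] F') (hφ : φ.toRingHom.IsIntegral) {e : ℕ} (he : 0 < e)
    (hord : ∀ x : F, (τ' (φ x)).order = (e : ℤ) * (τ x).order) :
    h'.place.restrictAlong φ hφ = h.place := by
  apply Place.ext
  ext x
  rcases eq_or_ne x 0 with rfl | hx
  · simp only [zero_mem]
  have hφx : φ x ≠ 0 := (map_ne_zero φ).mpr hx
  letI := algebraAlong φ
  haveI := isScalarTower_along φ
  haveI := isIntegral_along φ hφ
  have h1 : x ∈ (h'.place.restrictAlong φ hφ).toValuationSubring ↔
      φ x ∈ h'.place.toValuationSubring := Iff.rfl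
  rw [h1, h'.mem_place_iff hφx, h.mem_place_iff hx, hord]
  have he' : (0 : ℤ) < e := by exact_mod_cast he
  constructor
  · intro h0
    by_contra hneg
    have : (τ x).order < 0 := not_le.mp hneg
    nlinarith
  · intro h0
    positivity

/-- ... with ramification index `e`. -/
theorem ramificationIndexAlong_place (h : IsChart (K := K) τ) (h' : IsChart (K := K) τ')
    (φ : F →ₐ[K] F') (hφ : φ.toRingHom.IsIntegral) {e : ℕ} (he : 0 < e)
    (hord : ∀ x : F, (τ' (φ x)).order = (e : ℤ) * (τ x).order) :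
    h'.place.ramificationIndexAlong φ = e := by
  obtain ⟨a, ha, h1⟩ := h.exists_neg_one
  have hφa : φ a ≠ 0 := (map_ne_zero φ).mpr ha
  have h2 := Place.ord_restrictAlong φ hφ h'.place a
  rw [restrictAlong_place h h' φ hφ he hord, h.ord_place ha, h'.ord_place hφa, hord, h1] at h2
  have : ((h'.place.ramificationIndexAlong φ : ℕ) : ℤ) = (e : ℤ) := by linarith
  exact_mod_cast this

variable [HasPrincipalDivisors K F']

/-- **a correspondence `ψ_* φ^*` at a place with two known points in the `φ`-fibre exhausting the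
degree of `φ`**, both lying over the same place along `ψ`. -/
theorem correspondence_single_two (φ ψ : F →ₐ[K] F') (hφ : φ.toRingHom.IsIntegral)
    (hψ : ψ.toRingHom.IsIntegral) (hFI : FundamentalIdentityAlong K φ hφ)
    (hdeg' : ∀ w : Place K F', w.deg = 1) (v : Place K F) (hv : v.deg = 1)
    (w₁ w₂ : Place K F') (hne : w₁ ≠ w₂)
    (h₁ : w₁.restrictAlong φ hφ = v) (h₂ : w₂.restrictAlong φ hφ = v)
    (hsum : finrankAlong K φ = w₁.ramificationIndexAlong φ + w₂.ramificationIndexAlong φ)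
    (v' : Place K F) (h₁' : w₁.restrictAlong ψ hψ = v') (h₂' : w₂.restrictAlong ψ hψ = v')
    (n : ℤ) :
    Divisor.correspondence φ ψ hφ hψ (Finsupp.single v n) =
      Finsupp.single v' (n * (finrankAlong K φ : ℤ)) := by
  classical
  have hsumF := sum_ramificationIndexAlong φ hφ hFI hdeg' v hv
  have hm₁ : w₁ ∈ Place.fiberAlong φ hφ v := Place.mem_fiberAlong.mpr h₁
  have hm₂ : w₂ ∈ Place.fiberAlong φ hφ v := Place.mem_fiberAlong.mpr h₂
  have hpos : ∀ w : Place K F', 0 < (w.ramificationIndexAlong φ : ℤ) := by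
    intro w
    letI := algebraAlong φ
    haveI := isScalarTower_along φ
    haveI := isIntegral_along φ hφ
    have : 0 < w.ramificationIndex F := w.ramificationIndex_pos (F := F)
    show (0 : ℤ) < ((w.ramificationIndex F : ℕ) : ℤ)
    exact_mod_cast this
  -- the fibre is exactly `{w₁, w₂}`
  have hfib : Place.fiberAlong φ hφ v = {w₁, w₂} := by
    apply Finset.Subset.antisymm
    · intro w hw
      by_contra hnot
      have hsub : insert w ({w₁, w₂} : Finset (Place K F')) ⊆ Place.fiberAlong φ hφ v := by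
        intro u hu
        rcases Finset.mem_insert.mp hu with rfl | hu
        · exact hw
        rcases Finset.mem_insert.mp hu with rfl | hu
        · exact hm₁
        · rw [Finset.mem_singleton.mp hu]; exact hm₂
      have hle : ∑ u ∈ insert w ({w₁, w₂} : Finset (Place K F')),
          (u.ramificationIndexAlong φ : ℤ) ≤
          ∑ u ∈ Place.fiberAlong φ hφ v, (u.ramificationIndexAlong φ : ℤ) :=
        Finset.sum_le_sum_of_subset_of_nonneg hsub fun u _ _ => (hpos u).le
      rw [Finset.sum_insert hnot, Finset.sum_pair hne, hsumF, hsum] at hle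
      have := hpos w
      push_cast at hle
      omega
    · intro u hu
      rcases Finset.mem_insert.mp hu with rfl | hu
      · exact hm₁
      · rw [Finset.mem_singleton.mp hu]; exact hm₂
  rw [correspondence_single_of_deg φ ψ hφ hψ hdeg', hfib, Finset.sum_pair hne, h₁', h₂',
    ← Finsupp.single_add, hsum]
  push_cast
  ring_nf

end Generic

/-! ### the four charts at level `N ℓ` -/

section Charts

open Fermat.Agent.ES.KRON.Conjugates11 Fermat.Agent.MP.FUNC.FrickeDeg1
open Fermat.Agent.ES.HECKE Fermat.Agent.ES.HECKE.InputsMain19 Fermat.Agent.RED.TOP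

variable (N ℓ : ℕ) [NeZero N] [NeZero ℓ]

theorem isChart_chartInf : IsChart (K := Kbar) (chartInf N) :=
  ⟨chartInf_const N, jF N, jF_ne_zero N, by rw [chartInf_apply, order_coe_jF]⟩

theorem isChart_chartZero : IsChart (K := Kbar) (chartZero N) :=
  ⟨chartZero_const N, jNF N, jNF_ne_zero N, by
    rw [chartZero_apply, frickeBar_jNF, order_coe_jF]⟩

theorem place_chartInf : (isChart_chartInf N).place = cuspInf N := rfl

theorem place_chartZero : (isChart_chartZero N).place = cuspZero N := rfl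

theorem order_qExpand' (f : LaurentSeries Kbar) :
    (qExpand Kbar ℓ f).order = (ℓ : ℤ) * f.order :=
  Fermat.Agent.IG.PR.ThetaV1.order_qExpand ℓ f

variable {N ℓ}

/-- a chart `W` of `FF (N ℓ)` with `W ∘ β = id`, `W ∘ α = (q ↦ q^ℓ)` is a chart. -/
theorem isChart_W (W : FF (N * ℓ) →+* LaurentSeries Kbar)
    (hβ : ∀ h : FF N, W (heckeBetaBar Kbar N ℓ h) = (h : LaurentSeries Kbar))
    (hα : ∀ f : FF N, W (heckeAlphaBar Kbar N ℓ f) = qExpand Kbar ℓ (f : LaurentSeries Kbar)) :
    IsChart (K := Kbar) W := by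
  refine ⟨fun c => ?_, heckeBetaBar Kbar N ℓ (jF N), (map_ne_zero _).mpr (jF_ne_zero N), ?_⟩
  · have h1 : algebraMap Kbar (FF (N * ℓ)) c =
        heckeAlphaBar Kbar N ℓ (algebraMap Kbar (FF N) c) := (AlgHom.commutes _ c).symm
    rw [h1, hα]
    show qExpand Kbar ℓ (algebraMap Kbar (LaurentSeries Kbar) c) = HahnSeries.C c
    rw [algebraMap_laurentSeries_eq_single]
    exact qExpand_C ℓ c
  · rw [hβ, order_coe_jF]

/-- the Fricke twist of a chart. -/
theorem isChart_comp_fricke {M : ℕ} [NeZero M] {τ : FF M →+* LaurentSeries Kbar}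
    (h : IsChart (K := Kbar) τ) : IsChart (K := Kbar) (τ.comp (frickeBar M).toRingHom) := by
  obtain ⟨a, ha, h1⟩ := h.exists_neg_one
  refine ⟨fun c => ?_, frickeBar M a, frickeBar_ne_zero M ha, ?_⟩
  · show τ (frickeBar M (algebraMap Kbar (FF M) c)) = HahnSeries.C c
    rw [AlgHom.commutes]
    exact h.const c
  · show (τ (frickeBar M (frickeBar M a))).order = -1
    rw [frickeBar_frickeBar, h1]

end Charts

/-! ### `T_ℓ` on the two cusps -/

section Main

open Fermat.Agent.ES.KRON.Conjugates11 Fermat.Agent.MP.FUNC.FrickeDeg1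
open Fermat.Agent.ES.HECKE Fermat.Agent.ES.HECKE.InputsMain19 Fermat.Agent.RED.TOP

variable (N ℓ : ℕ) [NeZero N] [NeZero ℓ] (hℓ : ℓ.Prime) (hℓN : ¬ ℓ ∣ N)

/-- **`T_ℓ (∞) = (ℓ + 1) (∞)`** (and the same for the transpose `β_* α^*`). -/
theorem correspondence_cuspInf (n : ℤ) :
    haveI := hasPrincipalDivisors_level N ℓ
    Divisor.correspondence (heckeBetaBar Kbar N ℓ) (heckeAlphaBar Kbar N ℓ)
        (AlongDegree25.heckeBetaBarIntegral Kbar N ℓ hℓ hℓN)
        (AlongDegree25.heckeAlphaBarIntegral Kbar N ℓ hℓ hℓN) (Finsupp.single (cuspInf N) n) =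
      Finsupp.single (cuspInf N) (n * ((ℓ : ℤ) + 1)) := by
  haveI := hasPrincipalDivisors_level N ℓ
  obtain ⟨W, hWβ, hWα⟩ := exists_W N ℓ hℓ hℓN
  have hℓpos : 0 < ℓ := hℓ.pos
  set hα := AlongDegree25.heckeAlphaBarIntegral Kbar N ℓ hℓ hℓN
  set hβ := AlongDegree25.heckeBetaBarIntegral Kbar N ℓ hℓ hℓN
  have c0 := isChart_chartInf N
  have c1 := isChart_chartInf (N * ℓ)
  have c2 := isChart_W W hWβ hWα
  -- order relations
  have o1β : ∀ x : FF N, (chartInf (N * ℓ) (heckeBetaBar Kbar N ℓ x)).order =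
      (ℓ : ℤ) * (chartInf N x).order := fun x => by
    rw [chartInf_apply, chartInf_apply, coe_heckeBetaBar, order_qExpand']
  have o1α : ∀ x : FF N, (chartInf (N * ℓ) (heckeAlphaBar Kbar N ℓ x)).order =
      ((1 : ℕ) : ℤ) * (chartInf N x).order := fun x => by
    rw [chartInf_apply, chartInf_apply, coe_heckeAlphaBar, Nat.cast_one, one_mul]
  have o2β : ∀ x : FF N, (W (heckeBetaBar Kbar N ℓ x)).order =
      ((1 : ℕ) : ℤ) * (chartInf N x).order := fun x => by
    rw [hWβ, chartInf_apply, Nat.cast_one, one_mul]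
  have o2α : ∀ x : FF N, (W (heckeAlphaBar Kbar N ℓ x)).order =
      (ℓ : ℤ) * (chartInf N x).order := fun x => by
    rw [hWα, chartInf_apply, order_qExpand']
  have e1 := ramificationIndexAlong_place c0 c1 _ hβ hℓpos o1β
  have e2 := ramificationIndexAlong_place c0 c2 _ hβ one_pos o2β
  have hne : c1.place ≠ c2.place := by
    intro h
    rw [h, e2] at e1
    exact hℓ.one_lt.ne e1
  have key := correspondence_single_two (heckeBetaBar Kbar N ℓ) (heckeAlphaBar Kbar N ℓ) hβ hα
    (fundamentalIdentityAlong_beta N ℓ hℓ hℓN) (deg_place (N * ℓ)) (cuspInf N) (deg_cuspInf N)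
    c1.place c2.place hne
    (restrictAlong_place c0 c1 _ hβ hℓpos o1β) (restrictAlong_place c0 c2 _ hβ one_pos o2β)
    (by rw [e1, e2, AlongDegree25.finrankAlong_beta Kbar N ℓ hℓ hℓN])
    (cuspInf N)
    (restrictAlong_place c0 c1 _ hα one_pos o1α) (restrictAlong_place c0 c2 _ hα hℓpos o2α) n
  rw [key, AlongDegree25.finrankAlong_beta Kbar N ℓ hℓ hℓN]
  push_cast
  rfl

/-- **`T_ℓ (0) = (ℓ + 1) (0)`**. -/
theorem correspondence_cuspZero (n : ℤ) :
    haveI := hasPrincipalDivisors_level N ℓ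
    Divisor.correspondence (heckeBetaBar Kbar N ℓ) (heckeAlphaBar Kbar N ℓ)
        (AlongDegree25.heckeBetaBarIntegral Kbar N ℓ hℓ hℓN)
        (AlongDegree25.heckeAlphaBarIntegral Kbar N ℓ hℓ hℓN) (Finsupp.single (cuspZero N) n) =
      Finsupp.single (cuspZero N) (n * ((ℓ : ℤ) + 1)) := by
  haveI := hasPrincipalDivisors_level N ℓ
  obtain ⟨W, hWβ, hWα⟩ := exists_W N ℓ hℓ hℓN
  have hℓpos : 0 < ℓ := hℓ.pos
  set hα := AlongDegree25.heckeAlphaBarIntegral Kbar N ℓ hℓ hℓN
  set hβ := AlongDegree25.heckeBetaBarIntegral Kbar N ℓ hℓ hℓN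
  have c0 := isChart_chartZero N
  have c1 := isChart_chartZero (N * ℓ)
  have c2 := isChart_comp_fricke (M := N * ℓ) (isChart_W W hWβ hWα)
  -- order relations
  have o1β : ∀ x : FF N, (chartZero (N * ℓ) (heckeBetaBar Kbar N ℓ x)).order =
      ((1 : ℕ) : ℤ) * (chartZero N x).order := fun x => by
    rw [chartZero_apply, chartZero_apply, frickeBar_heckeBetaBar, coe_heckeAlphaBar,
      Nat.cast_one, one_mul]
  have o1α : ∀ x : FF N, (chartZero (N * ℓ) (heckeAlphaBar Kbar N ℓ x)).order =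
      (ℓ : ℤ) * (chartZero N x).order := fun x => by
    rw [chartZero_apply, chartZero_apply, frickeBar_heckeAlphaBar, coe_heckeBetaBar,
      order_qExpand']
  have o2β : ∀ x : FF N,
      ((W.comp (frickeBar (N * ℓ)).toRingHom) (heckeBetaBar Kbar N ℓ x)).order =
      (ℓ : ℤ) * (chartZero N x).order := fun x => by
    show (W (frickeBar (N * ℓ) (heckeBetaBar Kbar N ℓ x))).order = _
    rw [frickeBar_heckeBetaBar, hWα, chartZero_apply, order_qExpand']
  have o2α : ∀ x : FF N,
      ((W.comp (frickeBar (N * ℓ)).toRingHom) (heckeAlphaBar Kbar N ℓ x)).order =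
      ((1 : ℕ) : ℤ) * (chartZero N x).order := fun x => by
    show (W (frickeBar (N * ℓ) (heckeAlphaBar Kbar N ℓ x))).order = _
    rw [frickeBar_heckeAlphaBar, hWβ, chartZero_apply, Nat.cast_one, one_mul]
  have e1 := ramificationIndexAlong_place c0 c1 _ hβ one_pos o1β
  have e2 := ramificationIndexAlong_place c0 c2 _ hβ hℓpos o2β
  have hne : c1.place ≠ c2.place := by
    intro h
    rw [h, e2] at e1
    exact hℓ.one_lt.ne' e1
  have key := correspondence_single_two (heckeBetaBar Kbar N ℓ) (heckeAlphaBar Kbar N ℓ) hβ hα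
    (fundamentalIdentityAlong_beta N ℓ hℓ hℓN) (deg_place (N * ℓ)) (cuspZero N) (deg_cuspZero N)
    c1.place c2.place hne
    (restrictAlong_place c0 c1 _ hβ one_pos o1β) (restrictAlong_place c0 c2 _ hβ hℓpos o2β)
    (by rw [e1, e2, AlongDegree25.finrankAlong_beta Kbar N ℓ hℓ hℓN, add_comm])
    (cuspZero N)
    (restrictAlong_place c0 c1 _ hα hℓpos o1α) (restrictAlong_place c0 c2 _ hα one_pos o2α) n
  rw [key, AlongDegree25.finrankAlong_beta Kbar N ℓ hℓ hℓN]
  push_cast
  rfl

/-- `T_ℓ ((0) − (∞)) = (ℓ + 1) ((0) − (∞))` as divisors. -/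
theorem correspondence_cuspDiv :
    haveI := hasPrincipalDivisors_level N ℓ
    Divisor.correspondence (heckeBetaBar Kbar N ℓ) (heckeAlphaBar Kbar N ℓ)
        (AlongDegree25.heckeBetaBarIntegral Kbar N ℓ hℓ hℓN)
        (AlongDegree25.heckeAlphaBarIntegral Kbar N ℓ hℓ hℓN)
        ((cuspDiv N : Divisor.degZero (K := Kbar) (F := FF N)) : Divisor Kbar (FF N)) =
      ((ℓ : ℤ) + 1) • ((cuspDiv N : Divisor.degZero (K := Kbar) (F := FF N)) :
        Divisor Kbar (FF N)) := by
  haveI := hasPrincipalDivisors_level N ℓ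
  rw [coe_cuspDiv, map_sub, correspondence_cuspInf N ℓ hℓ hℓN, correspondence_cuspZero N ℓ hℓ hℓN,
    one_mul, smul_sub, Finsupp.smul_single, Finsupp.smul_single, smul_eq_mul, mul_one]

end Main

section Pic

open Fermat.Agent.ES.HECKE Fermat.Agent.ES.HECKE.InputsMain19

variable (N : ℕ) [NeZero N]

/-- **`T_ℓ c = (ℓ + 1) c`** for the cuspidal class `c = cl((0) − (∞))`, `ℓ ∤ N` prime. -/
theorem heckeOperatorBar_cuspClass (ℓ : Nat.Primes) (hℓN : ¬ (ℓ : ℕ) ∣ N) :
    heckeOperatorBar N ℓ (cuspClass N) = (((ℓ : ℕ) : ℤ) + 1) • cuspClass N := by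
  haveI : NeZero (ℓ : ℕ) := ⟨ℓ.2.ne_zero⟩
  haveI := hasPrincipalDivisors_level N (ℓ : ℕ)
  have hα := AlongDegree25.heckeAlphaBarIntegral Kbar N (ℓ : ℕ) ℓ.2 hℓN
  have hβ := AlongDegree25.heckeBetaBarIntegral Kbar N (ℓ : ℕ) ℓ.2 hℓN
  rw [cuspClass, heckeOperatorBar_mk ℓ hα hβ (fundamentalIdentityAlong_beta N (ℓ : ℕ) ℓ.2 hℓN)
    (AlongDegree25.finiteAlong_alpha Kbar N (ℓ : ℕ) ℓ.2 hℓN)
    (InputsFinal15.normFormulaAlong_alpha N (ℓ : ℕ) ℓ.2 hℓN)]
  have h : Pic0.degZeroCorrespondence (heckeBetaBar Kbar N (ℓ : ℕ)) (heckeAlphaBar Kbar N (ℓ : ℕ))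
      hβ hα (fundamentalIdentityAlong_beta N (ℓ : ℕ) ℓ.2 hℓN) (cuspDiv N) =
      (((ℓ : ℕ) : ℤ) + 1) • cuspDiv N := by
    apply Subtype.ext
    exact (correspondence_cuspDiv N (ℓ : ℕ) ℓ.2 hℓN).trans
      (AddSubgroupClass.coe_zsmul (cuspDiv N) (((ℓ : ℕ) : ℤ) + 1)).symm
  rw [h]
  exact QuotientAddGroup.mk_zsmul _ _ _

/-- the same in the Prelude's `HeckeAlg`-module structure (under commutativity). -/
theorem heckeGen_smul_cuspClass (hcomm : HeckeOperatorsCommuteBar N) (ℓ : Nat.Primes)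
    (hℓN : ¬ (ℓ : ℕ) ∣ N) :
    (letI := heckeModuleBar N; heckeGen ℓ • cuspClass N) = (((ℓ : ℕ) : ℤ) + 1) • cuspClass N := by
  rw [heckeModuleBar_heckeGen_smul hcomm, heckeOperatorBar_cuspClass N ℓ hℓN]

end Pic

end Fermat.Agent.MZ.CUSP.CuspHecke1
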