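/-
PROGRAMME MZ (S15), chapter CUSP (helper1): **the Eisenstein maximal ideal `P` of the Hecke ring
`R p` (MZ/HECKE/Ring5)**: `P ⊇ Ann_R(c)`, `c = cl((0) − (∞))`, residue characteristic `l' ∣ p − 1`,
`T_q − (q + 1) ∈ P` — NO hypothesis (uses `(p − 1) • c = 0`, `CuspUnit1`, and `c ≠ 0`, `CuspNonzero1`).

* `exists_maximal_of_torsion` (abstract) : `c ≠ 0`, `m • c = 0`, `m ≠ 0` ⟹ a maximal ideal
  `P ⊇ Ann_T(c)` whose residue characteristic `l'` is a prime divisor of `m`;
* `Tq_sub_smul_cuspClass` : `(T_q − (q + 1)) • c = 0`;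
* **`exists_eisenstein_maximal`**.
-/
import Mathlib
import Fermat.Agent.MZ.CUSP.CuspUnit1
import Fermat.Agent.MZ.CUSP.CuspHecke1
import Fermat.Agent.MZ.HECKE.Ring5

set_option autoImplicit false
set_option linter.unusedSectionVars false
set_option linter.unusedVariables false
set_option linter.style.longLine false
set_option linter.style.haveILetI false
set_option synthInstance.maxHeartbeats 400000
set_option maxHeartbeats 1000000

open AlgebraicCurve ModularCurve

noncomputable section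

namespace Fermat.Agent.MZ.CUSP.CuspEis1

open Fermat.Agent.MZ.CUSP.CuspPlaces1 Fermat.Agent.MZ.HECKE.Ring5

/-- **a maximal ideal over the annihilator of a nonzero torsion element**: its residue
characteristic divides the order. -/
theorem exists_maximal_of_torsion {T J : Type*} [CommRing T] [AddCommGroup J] [Module T J] (c : J)
    (hc : c ≠ 0) (m : ℕ) (hm0 : m ≠ 0) (hm : m • c = 0) :
    ∃ (P : Ideal T) (l' : ℕ), P.IsMaximal ∧ l'.Prime ∧ l' ∣ m ∧ ((l' : ℕ) : T) ∈ P ∧
      ∀ t : T, t • c = 0 → t ∈ P := by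
  classical
  have hAnn : Ideal.torsionOf T J c ≠ ⊤ := by
    intro h
    have h1 : (1 : T) ∈ Ideal.torsionOf T J c := by rw [h]; trivial
    rw [Ideal.mem_torsionOf_iff, one_smul] at h1
    exact hc h1
  obtain ⟨P, hPmax, hPle⟩ := Ideal.exists_le_maximal _ hAnn
  haveI := hPmax
  letI : Field (T ⧸ P) := Ideal.Quotient.field P
  have hmP : ((m : ℕ) : T) ∈ P := by
    apply hPle
    rw [Ideal.mem_torsionOf_iff, Nat.cast_smul_eq_nsmul]
    exact hm
  have hm' : ((m : ℕ) : T ⧸ P) = 0 := by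
    rw [← map_natCast (Ideal.Quotient.mk P), Ideal.Quotient.eq_zero_iff_mem]
    exact hmP
  obtain ⟨l', hchar⟩ := CharP.exists (T ⧸ P)
  haveI := hchar
  have hdvd : l' ∣ m := (CharP.cast_eq_zero_iff (T ⧸ P) l' m).mp hm'
  have hl'prime : l'.Prime := by
    rcases CharP.char_is_prime_or_zero (T ⧸ P) l' with h | h
    · exact h
    · subst h
      exact absurd (Nat.eq_zero_of_zero_dvd hdvd) hm0
  have hl'P : ((l' : ℕ) : T) ∈ P := by
    rw [← Ideal.Quotient.eq_zero_iff_mem, map_natCast]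
    exact CharP.cast_eq_zero _ _
  exact ⟨P, l', hPmax, hl'prime, hdvd, hl'P,
    fun t ht => hPle ((Ideal.mem_torsionOf_iff c t).mpr ht)⟩

variable {p : ℕ} [NeZero p]

theorem natCast_add_one_smul (n : ℕ) (x : JZero p) :
    (((n : ℕ) : R p) + 1) • x = (((n : ℕ) : ℤ) + 1) • x := by
  rw [add_smul', natCast_smul, add_zsmul, one_zsmul, one_smul, natCast_zsmul]

/-- `(T_q − (q + 1)) • c = 0`. -/
theorem Tq_sub_smul_cuspClass (q : Nat.Primes) (hq : ¬ (q : ℕ) ∣ p) :
    (Tq p q hq - (((q : ℕ) : R p) + 1)) • cuspClass p = 0 := by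
  rw [sub_smul, Tq_smul, natCast_add_one_smul]
  exact sub_eq_zero.mpr (CuspHecke1.heckeOperatorBar_cuspClass p q hq)

/-- **the Eisenstein maximal ideal** of `R p`, `p` prime, `p ∉ {2, 3, 5, 7, 13}`. -/
theorem exists_eisenstein_maximal (hp : p.Prime) (hp' : p ∉ ({2, 3, 5, 7, 13} : Finset ℕ)) :
    ∃ (P : Ideal (R p)) (l' : ℕ), P.IsMaximal ∧ l'.Prime ∧ l' ∣ p - 1 ∧ l' < p - 1 ∧
      ((l' : ℕ) : R p) ∈ P ∧ (∀ t : R p, t • cuspClass p = 0 → t ∈ P) ∧
      ∀ (q : Nat.Primes) (hq : ¬ (q : ℕ) ∣ p), Tq p q hq - (((q : ℕ) : R p) + 1) ∈ P := by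
  have hc := CuspNonzero1.cuspClass_ne_zero hp hp'
  have h1 : 1 ≤ p := hp.pos
  have hm : (p - 1) • cuspClass p = 0 := by
    have h := CuspUnit1.sub_one_smul_cuspClass p hp
    have h2 : ((p : ℤ) - 1) = ((p - 1 : ℕ) : ℤ) := by
      rw [Nat.cast_sub h1]; simp
    rw [h2, natCast_zsmul] at h
    exact h
  have hp11 : 11 ≤ p := by
    simp only [Finset.mem_insert, Finset.mem_singleton, not_or] at hp'
    by_contra hlt
    have hlt' : p < 11 := not_le.mp hlt
    interval_cases p <;> first | omega | (exfalso; revert hp; decide)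
  obtain ⟨P, l', hPmax, hl', hdvd, hl'P, hann⟩ :=
    exists_maximal_of_torsion (T := R p) (cuspClass p) hc (p - 1) (by omega) hm
  refine ⟨P, l', hPmax, hl', hdvd, ?_, hl'P, hann, fun q hq => hann _ (Tq_sub_smul_cuspClass q hq)⟩
  -- `l' < p - 1`: otherwise `p - 1` is an even prime
  have hle : l' ≤ p - 1 := Nat.le_of_dvd (by omega) hdvd
  rcases Nat.lt_or_ge l' (p - 1) with h | h
  · exact h
  · exfalso
    have heq : l' = p - 1 := le_antisymm hle h
    have hodd : Odd p := hp.odd_of_ne_two (by omega)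
    have heven : Even (p - 1) := by
      obtain ⟨k, hk⟩ := hodd
      exact ⟨k, by omega⟩
    rw [← heq] at heven
    have h2 : l' = 2 := (Nat.Prime.even_iff hl').mp heven
    omega

end Fermat.Agent.MZ.CUSP.CuspEis1
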