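/-
PROGRAMME MZ (S15), chapter CUSP (helper1): **the Eisenstein maximal ideal attached to a nonzero
element killed by an ideal of finite index** (abstract; to be instantiated with the Hecke ring `R` of
MZ/HECKE acting on `J₀(p)`, `c = cuspClass p`, `I` = Eisenstein ideal, `#(R/I) = n`).

* **`exists_maximal_ann`** : `c ≠ 0`, `I • c = 0`, `#(T/I) = n ≠ 0` ⟹ there are a maximal ideal
  `P ⊇ Ann_T(c) ⊇ I` and a prime `l' ∣ n` with `l' ∈ P`.
-/
import Mathlib

set_option autoImplicit false
set_option linter.unusedSectionVars false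
set_option linter.unusedVariables false
set_option linter.style.longLine false
set_option linter.style.haveILetI false

namespace Fermat.Agent.MZ.CUSP.CuspIdeal1

/-- **the Eisenstein maximal ideal of a nonzero Eisenstein element.** -/
theorem exists_maximal_ann {T J : Type*} [CommRing T] [AddCommGroup J] [Module T J] (c : J)
    (hc : c ≠ 0) (I : Ideal T) (hI : ∀ t ∈ I, t • c = 0) (n : ℕ) (hn : Nat.card (T ⧸ I) = n)
    (hn0 : n ≠ 0) :
    ∃ (P : Ideal T) (l' : ℕ), P.IsMaximal ∧ l'.Prime ∧ l' ∣ n ∧ ((l' : ℕ) : T) ∈ P ∧ I ≤ P ∧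
      ∀ t : T, t • c = 0 → t ∈ P := by
  classical
  -- the annihilator of `c`
  have hAnn : Ideal.torsionOf T J c ≠ ⊤ := by
    intro h
    have h1 : (1 : T) ∈ Ideal.torsionOf T J c := by rw [h]; trivial
    rw [Ideal.mem_torsionOf_iff, one_smul] at h1
    exact hc h1
  obtain ⟨P, hPmax, hPle⟩ := Ideal.exists_le_maximal _ hAnn
  have hIP : I ≤ P := fun t ht => hPle ((Ideal.mem_torsionOf_iff c t).mpr (hI t ht))
  haveI := hPmax
  letI : Field (T ⧸ P) := Ideal.Quotient.field P
  -- finiteness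
  haveI hfinI : Finite (T ⧸ I) := Nat.finite_of_card_ne_zero (by rw [hn]; exact hn0)
  have hsurj : Function.Surjective (Ideal.Quotient.factor hIP) := Ideal.Quotient.factor_surjective hIP
  haveI hfinP : Finite (T ⧸ P) := Finite.of_surjective _ hsurj
  -- the characteristic
  obtain ⟨l', hchar⟩ := CharP.exists (T ⧸ P)
  haveI := hchar
  have hl'prime : l'.Prime := by
    rcases CharP.char_is_prime_or_zero (T ⧸ P) l' with h | h
    · exact h
    · subst h
      haveI : CharZero (T ⧸ P) := CharP.charP_to_charZero _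
      exact (not_finite (T ⧸ P)).elim
  have hl'P : ((l' : ℕ) : T) ∈ P := by
    rw [← Ideal.Quotient.eq_zero_iff_mem, map_natCast]
    exact CharP.cast_eq_zero _ _
  have hdvd1 : l' ∣ Nat.card (T ⧸ P) := by
    have h1 : CharP (T ⧸ P) (addOrderOf (1 : T ⧸ P)) := CharP.addOrderOf_one _
    have h2 : addOrderOf (1 : T ⧸ P) = l' := CharP.eq (T ⧸ P) h1 hchar
    rw [← h2]
    exact addOrderOf_dvd_natCard 1
  have hdvd2 : Nat.card (T ⧸ P) ∣ Nat.card (T ⧸ I) :=
    AddSubgroup.card_dvd_of_surjective (Ideal.Quotient.factor hIP).toAddMonoidHom hsurj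
  refine ⟨P, l', hPmax, hl'prime, ?_, hl'P, hIP, fun t ht => hPle ((Ideal.mem_torsionOf_iff c t).mpr ht)⟩
  rw [← hn]
  exact hdvd1.trans hdvd2

end Fermat.Agent.MZ.CUSP.CuspIdeal1
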